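import Mathlib

/-!
# The Dedekind zeta function as a sum over nonzero ideals

`idealZeta K s = ∑' I : (Ideal (𝓞 K))⁰, N(I) ^ (-s)`; summability for `s > 1`, comparison with
Mathlib's `NumberField.dedekindZeta`, and the two-sided bound `c / (s - 1) ≤ ζ_K(s) ≤ C / (s - 1)`
near `s = 1`.
-/

set_option autoImplicit false
set_option linter.unusedSectionVars false

open NumberField Ideal nonZeroDivisors Filter Topology Finset

namespace Fermat.Agent.S14.EP

variable (K : Type*) [Field K] [NumberField K]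

/-- The number of ideals of norm `n`, as a real number. -/
noncomputable def idealCount (n : ℕ) : ℝ :=
  (Nat.card {I : Ideal (𝓞 K) // absNorm I = n} : ℝ)

lemma idealCount_nonneg (n : ℕ) : 0 ≤ idealCount K n := Nat.cast_nonneg _

/-- The term `N(I) ^ (-s)`. -/
noncomputable def normTerm (s : ℝ) (I : (Ideal (𝓞 K))⁰) : ℝ :=
  (absNorm (I : Ideal (𝓞 K)) : ℝ) ^ (-s)

lemma normTerm_pos (s : ℝ) (I : (Ideal (𝓞 K))⁰) : 0 < normTerm K s I := by
  unfold normTerm
  have : 0 < (absNorm (I : Ideal (𝓞 K)) : ℝ) :=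
    Nat.cast_pos.mpr (absNorm_pos_of_nonZeroDivisors I)
  positivity

lemma normTerm_nonneg (s : ℝ) (I : (Ideal (𝓞 K))⁰) : 0 ≤ normTerm K s I :=
  (normTerm_pos K s I).le

/-- Partial sums of the ideal counting function. -/
lemma sum_idealCount_eq (n : ℕ) :
    ∑ k ∈ Icc 1 n, idealCount K k =
      (Nat.card {I : (Ideal (𝓞 K))⁰ // absNorm (I : Ideal (𝓞 K)) ≤ n} : ℝ) := by
  unfold idealCount
  rw [← Nat.cast_sum]
  congr 1
  rw [← add_left_inj 1, ← card_norm_le_eq_card_norm_le_add_one,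
    show Finset.Icc 1 n = Finset.Ioc 0 n from Finset.Icc_succ_left_eq_Ioc _ _,
    show 1 = Nat.card {I : Ideal (𝓞 K) // absNorm I = 0} by simp [Ideal.absNorm_eq_zero_iff],
    Finset.sum_Ioc_add_eq_sum_Icc (n.zero_le),
    ← Finset.card_preimage_eq_sum_card_image_eq (fun k _ ↦ finite_setOfPred_absNorm_eq k)]
  simp [Set.coe_eq_subtype]

lemma tendsto_sum_idealCount_div :
    Tendsto (fun n : ℕ ↦ (∑ k ∈ Icc 1 n, idealCount K k) / n) atTop
      (𝓝 (dedekindZeta_residue K)) := by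
  refine ((Ideal.tendsto_norm_le_div_atTop₀ K).comp tendsto_natCast_atTop_atTop).congr fun n ↦ ?_
  simp only [Function.comp_apply, Nat.cast_le]
  rw [sum_idealCount_eq]

lemma lseriesSummable_idealCount {s : ℝ} (hs : 1 < s) :
    LSeriesSummable (fun n ↦ (idealCount K n : ℂ)) s := by
  refine LSeriesSummable_of_sum_norm_bigO_and_nonneg (r := 1) ?_ (idealCount_nonneg K)
    zero_le_one (by simpa using hs)
  have h := tendsto_sum_idealCount_div K
  have h2 : (fun n : ℕ ↦ ∑ k ∈ Icc 1 n, idealCount K k) =O[atTop] fun n : ℕ ↦ (n : ℝ) := by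
    refine Asymptotics.isBigO_of_div_tendsto_nhds ?_ _ h
    filter_upwards [eventually_ne_atTop 0] with n hn h0
    exact absurd (Nat.cast_eq_zero.mp h0) hn
  simpa using h2

end Fermat.Agent.S14.EP

namespace Fermat.Agent.S14.EP

variable (K : Type*) [Field K] [NumberField K]

/-- For `n ≠ 0`, nonzero ideals of norm `n` are the same as ideals of norm `n`. -/
noncomputable def fiberEquiv {n : ℕ} (hn : n ≠ 0) :
    {I : (Ideal (𝓞 K))⁰ // absNorm (I : Ideal (𝓞 K)) = n} ≃ {I : Ideal (𝓞 K) // absNorm I = n} where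
  toFun I := ⟨I.1.1, I.2⟩
  invFun I := ⟨⟨I.1, mem_nonZeroDivisors_of_ne_zero (by
    rintro h
    apply hn
    rw [← I.2, h]
    simp)⟩, I.2⟩
  left_inv I := rfl
  right_inv I := rfl

instance fiber_finite (n : ℕ) :
    Finite {I : (Ideal (𝓞 K))⁰ // absNorm (I : Ideal (𝓞 K)) = n} := by
  by_cases hn : n = 0
  · subst hn
    refine @Finite.of_subsingleton _ ⟨fun I J => ?_⟩
    exact absurd I.2 (absNorm_ne_zero_of_nonZeroDivisors I.1)
  · have : Finite {I : Ideal (𝓞 K) // absNorm I = n} := finite_setOfPred_absNorm_eq n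
    exact Finite.of_equiv _ (fiberEquiv K hn).symm

lemma card_fiber {n : ℕ} (hn : n ≠ 0) :
    (Nat.card {I : (Ideal (𝓞 K))⁰ // absNorm (I : Ideal (𝓞 K)) = n} : ℝ) = idealCount K n := by
  unfold idealCount
  rw [Nat.card_congr (fiberEquiv K hn)]

lemma hasSum_fiber (s : ℝ) (n : ℕ) :
    HasSum (fun I : {I : (Ideal (𝓞 K))⁰ // absNorm (I : Ideal (𝓞 K)) = n} => normTerm K s I.1)
      (idealCount K n * (n : ℝ) ^ (-s) * if n = 0 then 0 else 1) := by
  classical
  let _ : Fintype {I : (Ideal (𝓞 K))⁰ // absNorm (I : Ideal (𝓞 K)) = n} := Fintype.ofFinite _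
  have h := hasSum_fintype
    (fun I : {I : (Ideal (𝓞 K))⁰ // absNorm (I : Ideal (𝓞 K)) = n} => normTerm K s I.1)
  convert h using 1
  by_cases hn : n = 0
  · subst hn
    have : IsEmpty {I : (Ideal (𝓞 K))⁰ // absNorm (I : Ideal (𝓞 K)) = 0} :=
      ⟨fun I => absurd I.2 (absNorm_ne_zero_of_nonZeroDivisors I.1)⟩
    simp
  · rw [if_neg hn, mul_one]
    have : ∀ I : {I : (Ideal (𝓞 K))⁰ // absNorm (I : Ideal (𝓞 K)) = n},
        normTerm K s I.1 = (n : ℝ) ^ (-s) := by
      intro I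
      unfold normTerm
      rw [I.2]
    simp_rw [this]
    rw [Finset.sum_const, Finset.card_univ, nsmul_eq_mul, ← card_fiber K hn,
      Nat.card_eq_fintype_card]

/-- The real series `∑ a(n) n^{-s}`. -/
lemma summable_idealCount_mul {s : ℝ} (hs : 1 < s) :
    Summable (fun n : ℕ => idealCount K n * (n : ℝ) ^ (-s) * if n = 0 then 0 else 1) := by
  have h := (lseriesSummable_idealCount K hs).norm
  refine h.congr (fun n => ?_)
  by_cases hn : n = 0
  · subst hn
    simp [LSeries.term]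
  · rw [if_neg hn, mul_one, LSeries.norm_term_eq, if_neg hn]
    simp only [Complex.norm_real, Real.norm_eq_abs, abs_of_nonneg (idealCount_nonneg K n),
      Complex.ofReal_re]
    rw [Real.rpow_neg (Nat.cast_nonneg n), div_eq_mul_inv]

/-- Summability of `N(I)^{-s}` over the nonzero ideals, for `s > 1`. -/
lemma summable_sigma_normTerm {s : ℝ} (hs : 1 < s) :
    Summable (fun x : (Σ n : ℕ, {I : (Ideal (𝓞 K))⁰ // absNorm (I : Ideal (𝓞 K)) = n}) =>
      normTerm K s x.2.1) := by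
  refine (summable_sigma_of_nonneg (fun _ => normTerm_nonneg K s _)).mpr
    ⟨fun n => (hasSum_fiber K s n).summable, ?_⟩
  refine (summable_idealCount_mul K hs).congr (fun n => ?_)
  exact (hasSum_fiber K s n).tsum_eq.symm

theorem summable_normTerm {s : ℝ} (hs : 1 < s) : Summable (normTerm K s) :=
  (Equiv.sigmaFiberEquiv (fun I : (Ideal (𝓞 K))⁰ => absNorm (I : Ideal (𝓞 K)))).summable_iff.mp
    (summable_sigma_normTerm K hs)

/-- The Dedekind zeta function as a sum over nonzero ideals. -/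
noncomputable def idealZeta (s : ℝ) : ℝ := ∑' I : (Ideal (𝓞 K))⁰, normTerm K s I

lemma idealZeta_eq_tsum_idealCount {s : ℝ} (hs : 1 < s) :
    idealZeta K s = ∑' n : ℕ, idealCount K n * (n : ℝ) ^ (-s) * if n = 0 then 0 else 1 := by
  unfold idealZeta
  rw [← (Equiv.sigmaFiberEquiv
    (fun I : (Ideal (𝓞 K))⁰ => absNorm (I : Ideal (𝓞 K)))).tsum_eq (normTerm K s)]
  have h := Summable.tsum_sigma' (fun n => (hasSum_fiber K s n).summable)
    (summable_sigma_normTerm K hs)
  refine h.trans ?_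
  exact tsum_congr (fun n => (hasSum_fiber K s n).tsum_eq)

theorem ofReal_idealZeta {s : ℝ} (hs : 1 < s) :
    ((idealZeta K s : ℝ) : ℂ) = dedekindZeta K s := by
  rw [idealZeta_eq_tsum_idealCount K hs, dedekindZeta, LSeries, Complex.ofReal_tsum]
  refine tsum_congr (fun n => ?_)
  by_cases hn : n = 0
  · subst hn
    simp [LSeries.term]
  · rw [if_neg hn, mul_one, LSeries.term_of_ne_zero hn]
    unfold idealCount
    rw [Complex.ofReal_mul, Complex.ofReal_natCast,
      Real.rpow_neg (Nat.cast_nonneg n), Complex.ofReal_inv,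
      Complex.ofReal_cpow (Nat.cast_nonneg n), Complex.ofReal_natCast, div_eq_mul_inv]

lemma idealZeta_pos {s : ℝ} (hs : 1 < s) : 0 < idealZeta K s :=
  (summable_normTerm K hs).tsum_pos (normTerm_nonneg K s) 1 (normTerm_pos K s 1)

/-- `(s - 1) ζ_K(s)` tends to the (positive) residue as `s → 1⁺`. -/
theorem tendsto_sub_one_mul_idealZeta :
    Tendsto (fun s : ℝ => (s - 1) * idealZeta K s) (𝓝[>] 1) (𝓝 (dedekindZeta_residue K)) := by
  have h := tendsto_sub_one_mul_dedekindZeta_nhdsGT K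
  have h2 : Tendsto (fun s : ℝ => (((s - 1) * idealZeta K s : ℝ) : ℂ)) (𝓝[>] 1)
      (𝓝 ((dedekindZeta_residue K : ℝ) : ℂ)) := by
    refine h.congr' ?_
    filter_upwards [self_mem_nhdsWithin] with s hs
    rw [Complex.ofReal_mul, ofReal_idealZeta K hs]
    simp
  exact (Complex.continuous_re.tendsto _).comp h2 |>.congr (fun s => by simp)

/-- Two-sided bound for `ζ_K(s)` near `s = 1`. -/
theorem exists_bounds_idealZeta :
    ∃ c C ε : ℝ, 0 < c ∧ 0 < C ∧ 0 < ε ∧ ∀ s : ℝ, 1 < s → s < 1 + ε →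
      c / (s - 1) ≤ idealZeta K s ∧ idealZeta K s ≤ C / (s - 1) := by
  have hres := dedekindZeta_residue_pos K
  set κ := dedekindZeta_residue K with hκ
  have h := tendsto_sub_one_mul_idealZeta K
  have hev : ∀ᶠ s in 𝓝[>] (1 : ℝ), (s - 1) * idealZeta K s ∈ Set.Ioo (κ / 2) (2 * κ) :=
    h (Ioo_mem_nhds (by linarith) (by linarith))
  rw [eventually_nhdsWithin_iff] at hev
  obtain ⟨ε, hε, hball⟩ := Metric.eventually_nhds_iff.mp hev
  refine ⟨κ / 2, 2 * κ, ε, by positivity, by positivity, hε, fun s hs1 hs2 => ?_⟩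
  have hd : dist s 1 < ε := by
    rw [Real.dist_eq, abs_of_pos (by linarith)]
    linarith
  have := hball hd hs1
  have hpos : 0 < s - 1 := by linarith
  constructor
  · rw [div_le_iff₀ hpos]
    nlinarith [this.1]
  · rw [le_div_iff₀ hpos]
    nlinarith [this.2]

end Fermat.Agent.S14.EP
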