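import Fermat.Agent.S14.EP.Euler
import Fermat.Agent.S14.EP.Zeta

/-!
# Class-group `L`-series: Euler product and the product over the powers of a character of
prime order
-/

set_option autoImplicit false
set_option linter.unusedSectionVars false

open NumberField Ideal nonZeroDivisors Filter Topology Finset IsDedekindDomain

namespace Fermat.Agent.S14.EP

variable (K : Type*) [Field K] [NumberField K]

/-- `I ↦ N(I)^{-s}` as a monoid hom. -/
noncomputable def normTermHom (s : ℝ) : (Ideal (𝓞 K))⁰ →* ℝ where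
  toFun := normTerm K s
  map_one' := by simp [normTerm]
  map_mul' I J := by
    simp only [normTerm, Submonoid.coe_mul, map_mul, Nat.cast_mul]
    exact Real.mul_rpow (Nat.cast_nonneg _) (Nat.cast_nonneg _)

@[simp] lemma normTermHom_apply (s : ℝ) (I : (Ideal (𝓞 K))⁰) :
    normTermHom K s I = normTerm K s I := rfl

/-- The term `χ(I) N(I)^{-s}` of the class `L`-series as a monoid hom. -/
noncomputable def charTermHom (χ : ClassGroup (𝓞 K) →* ℂˣ) (s : ℝ) : (Ideal (𝓞 K))⁰ →* ℂ :=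
  ((Units.coeHom ℂ).comp (χ.comp ClassGroup.mk0)) *
    ((Complex.ofRealHom : ℝ →+* ℂ).toMonoidHom.comp (normTermHom K s))

lemma charTermHom_apply (χ : ClassGroup (𝓞 K) →* ℂˣ) (s : ℝ) (I : (Ideal (𝓞 K))⁰) :
    charTermHom K χ s I = (χ (ClassGroup.mk0 I) : ℂ) * ((normTerm K s I : ℝ) : ℂ) := rfl

lemma norm_char (χ : ClassGroup (𝓞 K) →* ℂˣ) (c : ClassGroup (𝓞 K)) : ‖(χ c : ℂ)‖ = 1 := by
  have hn : 0 < orderOf c := orderOf_pos c
  have h1 : (χ c : ℂ) ^ orderOf c = 1 := by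
    rw [← Units.val_pow_eq_pow_val, ← map_pow, pow_orderOf_eq_one, map_one, Units.val_one]
  have h2 : ‖(χ c : ℂ)‖ ^ orderOf c = 1 := by rw [← norm_pow, h1, norm_one]
  exact (pow_eq_one_iff_of_nonneg (norm_nonneg _) hn.ne').mp h2

lemma norm_charTermHom (χ : ClassGroup (𝓞 K) →* ℂˣ) (s : ℝ) (I : (Ideal (𝓞 K))⁰) :
    ‖charTermHom K χ s I‖ = normTerm K s I := by
  rw [charTermHom_apply, norm_mul, norm_char, one_mul, Complex.norm_real, Real.norm_eq_abs,
    abs_of_nonneg (normTerm_nonneg K s I)]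

lemma summable_norm_charTermHom (χ : ClassGroup (𝓞 K) →* ℂˣ) {s : ℝ} (hs : 1 < s) :
    Summable (fun I => ‖charTermHom K χ s I‖) := by
  simp_rw [norm_charTermHom]
  exact summable_normTerm K hs

/-- The class `L`-series `L(s, χ) = ∑ χ(I) N(I)^{-s}` (sum over nonzero ideals). -/
noncomputable def LFun (χ : ClassGroup (𝓞 K) →* ℂˣ) (s : ℝ) : ℂ :=
  ∑' I : (Ideal (𝓞 K))⁰, (χ (ClassGroup.mk0 I) : ℂ) * ((normTerm K s I : ℝ) : ℂ)

/-- Norm of a prime: `N(q)^{-s}`. -/
noncomputable def primeTerm (s : ℝ) (q : HeightOneSpectrum (𝓞 K)) : ℝ :=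
  normTerm K s (prime₀ q)

lemma primeTerm_pos (s : ℝ) (q : HeightOneSpectrum (𝓞 K)) : 0 < primeTerm K s q :=
  normTerm_pos K s _

lemma primeTerm_lt_one {s : ℝ} (hs : 1 < s) (q : HeightOneSpectrum (𝓞 K)) :
    primeTerm K s q < 1 := by
  have h := norm_prime_lt_one (normTermHom K s)
    (by simpa [Real.norm_eq_abs, abs_of_nonneg (normTerm_nonneg K s _)] using
      summable_normTerm K hs) q
  simpa [primeTerm, Real.norm_eq_abs, abs_of_nonneg (normTerm_nonneg K s _)] using h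

/-- **Euler product** for the class `L`-series. -/
theorem LFun_hasProd (χ : ClassGroup (𝓞 K) →* ℂˣ) {s : ℝ} (hs : 1 < s) :
    HasProd (fun q : HeightOneSpectrum (𝓞 K) =>
      (1 - (χ (ClassGroup.mk0 (prime₀ q)) : ℂ) * ((primeTerm K s q : ℝ) : ℂ))⁻¹) (LFun K χ s) :=
  eulerProduct_hasProd (charTermHom K χ s) (summable_norm_charTermHom K χ hs)

/-- **Euler product** for the Dedekind zeta function. -/
theorem idealZeta_hasProd {s : ℝ} (hs : 1 < s) :
    HasProd (fun q : HeightOneSpectrum (𝓞 K) => (1 - primeTerm K s q)⁻¹) (idealZeta K s) :=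
  eulerProduct_hasProd (normTermHom K s)
    (by simpa [Real.norm_eq_abs, abs_of_nonneg (normTerm_nonneg K s _)] using
      summable_normTerm K hs)

lemma LFun_one {s : ℝ} : LFun K 1 s = ((idealZeta K s : ℝ) : ℂ) := by
  unfold LFun idealZeta
  rw [Complex.ofReal_tsum]
  exact tsum_congr (fun I => by simp)

end Fermat.Agent.S14.EP

namespace Fermat.Agent.S14.EP

variable (K : Type*) [Field K] [NumberField K]

/-- `∏_{k<p} (1 - z^k x) = 1 - x^p` for a nontrivial `p`-th root of unity `z`, `p` prime. -/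
lemma prod_one_sub_pow_mul {p : ℕ} (hp : p.Prime) {z : ℂ} (hz : z ^ p = 1) (hz1 : z ≠ 1) (x : ℂ) :
    ∏ k ∈ range p, (1 - z ^ k * x) = 1 - x ^ p := by
  have hmem : z ∈ Polynomial.nthRootsFinset p (1 : ℂ) :=
    (Polynomial.mem_nthRootsFinset hp.pos 1).mpr hz
  have hprim : IsPrimitiveRoot z p := isPrimitiveRoot_of_mem_nthRootsFinset hp hmem hz1
  have h := X_pow_sub_C_eq_prod hprim hp.pos (rfl : x ^ p = x ^ p)
  have h2 := congrArg (Polynomial.eval 1) h
  simp only [Polynomial.eval_sub, Polynomial.eval_pow, Polynomial.eval_X, one_pow,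
    Polynomial.eval_C, Polynomial.eval_prod] at h2
  exact h2.symm

/-- The local factor at `q` of `∏_{k<p} L(s, χ^k)`. -/
noncomputable def localFactor (p : ℕ) (χ : ClassGroup (𝓞 K) →* ℂˣ) (s : ℝ)
    (q : HeightOneSpectrum (𝓞 K)) : ℂ :=
  ∏ k ∈ range p,
    (1 - ((χ ^ k) (ClassGroup.mk0 (prime₀ q)) : ℂ) * ((primeTerm K s q : ℝ) : ℂ))⁻¹

lemma localFactor_of_eq_one (p : ℕ) (χ : ClassGroup (𝓞 K) →* ℂˣ) (s : ℝ)
    (q : HeightOneSpectrum (𝓞 K)) (hq : χ (ClassGroup.mk0 (prime₀ q)) = 1) :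
    localFactor K p χ s q = (((1 - primeTerm K s q)⁻¹ ^ p : ℝ) : ℂ) := by
  unfold localFactor
  simp only [MonoidHom.pow_apply, hq, one_pow, Units.val_one, one_mul, prod_const, card_range]
  push_cast
  rfl

lemma localFactor_of_ne_one {p : ℕ} (hp : p.Prime) (χ : ClassGroup (𝓞 K) →* ℂˣ)
    (hχ : ∀ c, χ c ^ p = 1) (s : ℝ)
    (q : HeightOneSpectrum (𝓞 K)) (hq : χ (ClassGroup.mk0 (prime₀ q)) ≠ 1) :
    localFactor K p χ s q = (((1 - primeTerm K s q ^ p)⁻¹ : ℝ) : ℂ) := by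
  unfold localFactor
  rw [Finset.prod_inv_distrib]
  simp only [MonoidHom.pow_apply, Units.val_pow_eq_pow_val]
  rw [prod_one_sub_pow_mul hp (z := (χ (ClassGroup.mk0 (prime₀ q)) : ℂ))]
  · push_cast
    rfl
  · rw [← Units.val_pow_eq_pow_val, hχ, Units.val_one]
  · intro h
    exact hq (Units.ext h)

lemma one_le_norm_localFactor {p : ℕ} (hp : p.Prime) (χ : ClassGroup (𝓞 K) →* ℂˣ)
    (hχ : ∀ c, χ c ^ p = 1) {s : ℝ} (hs : 1 < s) (q : HeightOneSpectrum (𝓞 K)) :
    1 ≤ ‖localFactor K p χ s q‖ := by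
  have hx0 := primeTerm_pos K s q
  have hx1 := primeTerm_lt_one K hs q
  by_cases hq : χ (ClassGroup.mk0 (prime₀ q)) = 1
  · rw [localFactor_of_eq_one K p χ s q hq, Complex.norm_real, Real.norm_eq_abs]
    have h1 : 1 ≤ (1 - primeTerm K s q)⁻¹ := by
      rw [one_le_inv₀ (by linarith)]
      linarith
    rw [abs_of_nonneg (by positivity)]
    exact one_le_pow₀ h1
  · rw [localFactor_of_ne_one K hp χ hχ s q hq, Complex.norm_real, Real.norm_eq_abs]
    have hxp0 : 0 < primeTerm K s q ^ p := pow_pos hx0 p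
    have hxp1 : primeTerm K s q ^ p < 1 := pow_lt_one₀ hx0.le hx1 hp.ne_zero
    have h1 : 1 ≤ (1 - primeTerm K s q ^ p)⁻¹ := by
      rw [one_le_inv₀ (by linarith)]
      linarith
    rw [abs_of_nonneg (by linarith)]
    exact h1

/-- Euler product of `∏_{k<p} L(s, χ^k)`. -/
theorem prod_LFun_hasProd (p : ℕ) (χ : ClassGroup (𝓞 K) →* ℂˣ) {s : ℝ} (hs : 1 < s) :
    HasProd (localFactor K p χ s) (∏ k ∈ range p, LFun K (χ ^ k) s) :=
  hasProd_prod (fun k _ => LFun_hasProd K (χ ^ k) hs)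

/-- **N2**: lower bound of `‖∏_{k<p} L(s, χ^k)‖` by a finite Euler product over primes in the
kernel of `χ`. -/
theorem prod_le_norm_prod_LFun {p : ℕ} (hp : p.Prime) (χ : ClassGroup (𝓞 K) →* ℂˣ)
    (hχ : ∀ c, χ c ^ p = 1) {s : ℝ} (hs : 1 < s) (T : Finset (HeightOneSpectrum (𝓞 K)))
    (hT : ∀ q ∈ T, χ (ClassGroup.mk0 (prime₀ q)) = 1) :
    ∏ q ∈ T, ((1 - primeTerm K s q)⁻¹) ^ p ≤ ‖∏ k ∈ range p, LFun K (χ ^ k) s‖ := by
  classical
  have hprod : Tendsto (fun T' : Finset (HeightOneSpectrum (𝓞 K)) =>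
      ∏ q ∈ T', localFactor K p χ s q) atTop (𝓝 (∏ k ∈ range p, LFun K (χ ^ k) s)) :=
    prod_LFun_hasProd K p χ hs
  have hnorm := (continuous_norm.tendsto _).comp hprod
  refine ge_of_tendsto hnorm ?_
  filter_upwards [eventually_ge_atTop T] with T' hT'
  simp only [Function.comp_apply, norm_prod]
  have h1 : ∏ q ∈ T, ((1 - primeTerm K s q)⁻¹) ^ p = ∏ q ∈ T, ‖localFactor K p χ s q‖ := by
    refine Finset.prod_congr rfl (fun q hq => ?_)
    rw [localFactor_of_eq_one K p χ s q (hT q hq), Complex.norm_real, Real.norm_eq_abs,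
      abs_of_nonneg]
    have hx1 := primeTerm_lt_one K hs q
    have : 0 ≤ (1 - primeTerm K s q)⁻¹ := inv_nonneg.mpr (by linarith)
    positivity
  rw [h1]
  exact Finset.prod_le_prod_of_subset_of_one_le hT' (fun q _ => norm_nonneg _)
    (fun q _ _ => one_le_norm_localFactor K hp χ hχ hs q)

end Fermat.Agent.S14.EP
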