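import Fermat.Agent.S14.EP.CharProd

/-!
# The density contradiction (abstract form)

Let `χ` be a character of order `p` of the class group of `K`.  If `S₂` is a set of primes whose
finite Euler products are `≤ (C' / (s - 1))^{1/p}` (e.g. primes splitting completely in a degree `p`
extension) and `S₃` is a set of primes whose finite Euler products are uniformly bounded
(e.g. primes of degree `≥ 2`), then some prime `q ∉ S₂ ∪ S₃` has `χ(q) ≠ 1`, provided the class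
`L`-series `L(s, χ^k)`, `0 < k < p`, are bounded on `(1, 2]`.
-/

set_option autoImplicit false
set_option linter.unusedSectionVars false

open NumberField Ideal nonZeroDivisors Filter Topology Finset IsDedekindDomain

namespace Fermat.Agent.S14.EP

variable (K : Type*) [Field K] [NumberField K]

lemma eulerFactor_ge_one {s : ℝ} (hs : 1 < s) (q : HeightOneSpectrum (𝓞 K)) :
    1 ≤ (1 - primeTerm K s q)⁻¹ := by
  have hx0 := primeTerm_pos K s q
  have hx1 := primeTerm_lt_one K hs q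
  rw [one_le_inv₀ (by linarith)]
  linarith

lemma eulerFactor_pos {s : ℝ} (hs : 1 < s) (q : HeightOneSpectrum (𝓞 K)) :
    0 < (1 - primeTerm K s q)⁻¹ :=
  lt_of_lt_of_le one_pos (eulerFactor_ge_one K hs q)

/-- Uniform bound for the `L`-series of the nontrivial powers of `χ` from the bound for each
of them. -/
lemma exists_uniform_bound {p : ℕ} (χ : ClassGroup (𝓞 K) →* ℂˣ)
    (hN1 : ∀ k, 0 < k → k < p →
      ∃ B : ℝ, ∀ s : ℝ, 1 < s → s ≤ 2 → ‖LFun K (χ ^ k) s‖ ≤ B) :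
    ∃ B : ℝ, 1 ≤ B ∧ ∀ k, 0 < k → k < p → ∀ s : ℝ, 1 < s → s ≤ 2 → ‖LFun K (χ ^ k) s‖ ≤ B := by
  classical
  choose! b hb using hN1
  refine ⟨1 + ∑ k ∈ Finset.range p, |b k|, ?_, fun k hk0 hkp s hs1 hs2 => ?_⟩
  · have : 0 ≤ ∑ k ∈ Finset.range p, |b k| := Finset.sum_nonneg (fun _ _ => abs_nonneg _)
    linarith
  · have h1 := hb k hk0 hkp s hs1 hs2
    have h2 : |b k| ≤ ∑ k ∈ Finset.range p, |b k| :=
      Finset.single_le_sum (f := fun k => |b k|) (fun _ _ => abs_nonneg _)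
        (Finset.mem_range.mpr hkp)
    have h3 := le_abs_self (b k)
    linarith

/-- Bound for the Euler product over primes in the kernel of `χ`. -/
lemma prod_kernel_le {p : ℕ} (hp : p.Prime) (χ : ClassGroup (𝓞 K) →* ℂˣ)
    (hχ : ∀ c, χ c ^ p = 1) {B : ℝ}
    (hB : ∀ k, 0 < k → k < p → ∀ s : ℝ, 1 < s → s ≤ 2 → ‖LFun K (χ ^ k) s‖ ≤ B)
    {s : ℝ} (hs : 1 < s) (hs2 : s ≤ 2) (T : Finset (HeightOneSpectrum (𝓞 K)))
    (hT : ∀ q ∈ T, χ (ClassGroup.mk0 (prime₀ q)) = 1) :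
    ∏ q ∈ T, ((1 - primeTerm K s q)⁻¹) ^ p ≤ idealZeta K s * B ^ (p - 1) := by
  refine (prod_le_norm_prod_LFun K hp χ hχ hs T hT).trans ?_
  obtain ⟨m, rfl⟩ : ∃ m, p = m + 1 := ⟨p - 1, (Nat.succ_pred_eq_of_pos hp.pos).symm⟩
  have h0 : χ ^ 0 = 1 := pow_zero χ
  rw [Finset.prod_range_succ', norm_mul, h0, LFun_one, Complex.norm_real,
    Real.norm_eq_abs, abs_of_pos (idealZeta_pos K hs), mul_comm, norm_prod, Nat.add_sub_cancel]
  refine mul_le_mul_of_nonneg_left ?_ (idealZeta_pos K hs).le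
  calc ∏ k ∈ Finset.range m, ‖LFun K (χ ^ (k + 1)) s‖
      ≤ ∏ _k ∈ Finset.range m, B :=
        Finset.prod_le_prod (fun _ _ => norm_nonneg _)
          (fun k hk => hB (k + 1) (Nat.succ_pos k)
            (Nat.succ_lt_succ (Finset.mem_range.mp hk)) s hs hs2)
    _ = B ^ m := by rw [Finset.prod_const, Finset.card_range]

/-- **Density contradiction, abstract form.** -/
theorem exists_prime_not_mem {p : ℕ} (hp : p.Prime) (hp3 : 3 ≤ p)
    (χ : ClassGroup (𝓞 K) →* ℂˣ) (hχ : ∀ c, χ c ^ p = 1)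
    (hN1 : ∀ k, 0 < k → k < p →
      ∃ B : ℝ, ∀ s : ℝ, 1 < s → s ≤ 2 → ‖LFun K (χ ^ k) s‖ ≤ B)
    (S₂ S₃ : Set (HeightOneSpectrum (𝓞 K)))
    (hS₂ : ∃ C' ε' : ℝ, 0 < ε' ∧ ∀ s : ℝ, 1 < s → s < 1 + ε' →
      ∀ T : Finset (HeightOneSpectrum (𝓞 K)), (∀ q ∈ T, q ∈ S₂) →
        ∏ q ∈ T, ((1 - primeTerm K s q)⁻¹) ^ p ≤ C' / (s - 1))
    (hS₃ : ∃ C₃ : ℝ, ∀ s : ℝ, 1 < s → s ≤ 2 →
      ∀ T : Finset (HeightOneSpectrum (𝓞 K)), (∀ q ∈ T, q ∈ S₃) →
        ∏ q ∈ T, (1 - primeTerm K s q)⁻¹ ≤ C₃) :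
    ∃ q : HeightOneSpectrum (𝓞 K),
      χ (ClassGroup.mk0 (prime₀ q)) ≠ 1 ∧ q ∉ S₂ ∧ q ∉ S₃ := by
  classical
  by_contra hcon
  push Not at hcon
  obtain ⟨B, hB1, hB⟩ := exists_uniform_bound K χ hN1
  obtain ⟨C', ε', hε', hC'⟩ := hS₂
  obtain ⟨C₃, hC₃⟩ := hS₃
  obtain ⟨c, C, ε, hc, hC, hε, hζ⟩ := exists_bounds_idealZeta K
  -- normalise the constants
  have hC₃1 : ∀ s : ℝ, 1 < s → s ≤ 2 →
      ∀ T : Finset (HeightOneSpectrum (𝓞 K)), (∀ q ∈ T, q ∈ S₃) →
        ∏ q ∈ T, (1 - primeTerm K s q)⁻¹ ≤ max C₃ 1 :=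
    fun s hs hs2 T hT => (hC₃ s hs hs2 T hT).trans (le_max_left _ _)
  set C₃' := max C₃ 1 with hC₃'
  have hC₃pos : 0 < C₃' := lt_of_lt_of_le one_pos (le_max_right _ _)
  set C'' := max C' 1 with hC''
  have hC''pos : 0 < C'' := lt_of_lt_of_le one_pos (le_max_right _ _)
  -- the key inequality
  have key : ∀ s : ℝ, 1 < s → s < 1 + ε → s < 1 + ε' → s ≤ 2 →
      idealZeta K s ^ p ≤ (C / (s - 1) * B ^ (p - 1)) * (C'' / (s - 1)) * C₃' ^ p := by
    intro s hs hsε hsε' hs2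
    have hs0 : 0 < s - 1 := by linarith
    have hprod : Tendsto (fun T : Finset (HeightOneSpectrum (𝓞 K)) =>
        ∏ q ∈ T, (1 - primeTerm K s q)⁻¹) atTop (𝓝 (idealZeta K s)) := idealZeta_hasProd K hs
    have hpow := hprod.pow p
    refine le_of_tendsto hpow (Eventually.of_forall fun T => ?_)
    -- split `T`
    set T₁ := T.filter (fun q => χ (ClassGroup.mk0 (prime₀ q)) = 1) with hT₁
    set T' := T.filter (fun q => ¬ χ (ClassGroup.mk0 (prime₀ q)) = 1) with hT'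
    set T₂ := T'.filter (fun q => q ∈ S₂) with hT₂
    set T₃ := T'.filter (fun q => ¬ q ∈ S₂) with hT₃
    have hsplit1 : ∏ q ∈ T, (1 - primeTerm K s q)⁻¹ =
        (∏ q ∈ T₁, (1 - primeTerm K s q)⁻¹) * ∏ q ∈ T', (1 - primeTerm K s q)⁻¹ :=
      (Finset.prod_filter_mul_prod_filter_not T _ _).symm
    have hsplit2 : ∏ q ∈ T', (1 - primeTerm K s q)⁻¹ =
        (∏ q ∈ T₂, (1 - primeTerm K s q)⁻¹) * ∏ q ∈ T₃, (1 - primeTerm K s q)⁻¹ :=
      (Finset.prod_filter_mul_prod_filter_not T' _ _).symm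
    have h1 : (∏ q ∈ T₁, (1 - primeTerm K s q)⁻¹) ^ p ≤ C / (s - 1) * B ^ (p - 1) := by
      rw [← Finset.prod_pow]
      refine (prod_kernel_le K hp χ hχ hB hs hs2 T₁ ?_).trans ?_
      · intro q hq
        exact (Finset.mem_filter.mp hq).2
      · exact mul_le_mul_of_nonneg_right (hζ s hs hsε).2 (by positivity)
    have h2 : (∏ q ∈ T₂, (1 - primeTerm K s q)⁻¹) ^ p ≤ C'' / (s - 1) := by
      rw [← Finset.prod_pow]
      refine (hC' s hs hsε' T₂ ?_).trans ?_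
      · intro q hq
        exact (Finset.mem_filter.mp hq).2
      · exact div_le_div_of_nonneg_right (le_max_left _ _) hs0.le
    have h3 : (∏ q ∈ T₃, (1 - primeTerm K s q)⁻¹) ^ p ≤ C₃' ^ p := by
      refine pow_le_pow_left₀ (Finset.prod_nonneg fun q _ => (eulerFactor_pos K hs q).le) ?_ p
      refine hC₃1 s hs hs2 T₃ ?_
      intro q hq
      have hq' := Finset.mem_filter.mp hq
      have hq'' := Finset.mem_filter.mp hq'.1
      exact hcon q hq''.2 hq'.2
    have hnn : ∀ U : Finset (HeightOneSpectrum (𝓞 K)),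
        0 ≤ (∏ q ∈ U, (1 - primeTerm K s q)⁻¹) ^ p :=
      fun U => pow_nonneg (Finset.prod_nonneg fun q _ => (eulerFactor_pos K hs q).le) p
    rw [hsplit1, hsplit2, mul_pow, mul_pow, ← mul_assoc]
    exact mul_le_mul (mul_le_mul h1 h2 (hnn _) (by positivity)) h3 (hnn _) (by positivity)
  -- choose `s` close to `1`
  set D := C * B ^ (p - 1) * C'' * C₃' ^ p with hD
  have hDpos : 0 < D := by positivity
  set t := min (min (ε / 2) (ε' / 2)) (min (1 / 2) (c ^ p / (2 * D))) with ht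
  have ht0 : 0 < t := by
    simp only [ht, lt_min_iff]
    refine ⟨⟨by positivity, by positivity⟩, by positivity, by positivity⟩
  have htε : t < ε := lt_of_le_of_lt ((min_le_left _ _).trans (min_le_left _ _)) (by linarith)
  have htε' : t < ε' := lt_of_le_of_lt ((min_le_left _ _).trans (min_le_right _ _)) (by linarith)
  have ht1 : t ≤ 1 / 2 := (min_le_right _ _).trans (min_le_left _ _)
  have htD : t ≤ c ^ p / (2 * D) := (min_le_right _ _).trans (min_le_right _ _)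
  have hk := key (1 + t) (by linarith) (by linarith) (by linarith) (by linarith)
  have hlow := (hζ (1 + t) (by linarith) (by linarith)).1
  simp only [add_sub_cancel_left] at hk hlow
  have hlow' : (c / t) ^ p ≤ idealZeta K (1 + t) ^ p :=
    pow_le_pow_left₀ (by positivity) hlow p
  have hcomb : (c / t) ^ p ≤ C / t * B ^ (p - 1) * (C'' / t) * C₃' ^ p := hlow'.trans hk
  -- `c^p ≤ D t^(p-2) ≤ D t`
  obtain ⟨m, rfl⟩ : ∃ m, p = m + 3 := ⟨p - 3, by omega⟩
  have e1 : (c / t) ^ (m + 3) = c ^ (m + 3) / (t ^ (m + 1) * t ^ 2) := by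
    rw [div_pow, ← pow_add]
  have e2 : C / t * B ^ (m + 3 - 1) * (C'' / t) * C₃' ^ (m + 3) = D / t ^ 2 := by
    rw [hD]
    field_simp
  rw [e1, e2, div_le_div_iff₀ (by positivity) (by positivity)] at hcomb
  have htm : t ^ (m + 1) ≤ t := by
    calc t ^ (m + 1) = t ^ m * t := pow_succ t m
      _ ≤ 1 * t := by
        refine mul_le_mul_of_nonneg_right ?_ ht0.le
        exact pow_le_one₀ ht0.le (by linarith)
      _ = t := one_mul t
  have h4 : c ^ (m + 3) ≤ D * t := by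
    have h5 : c ^ (m + 3) * t ^ 2 ≤ D * t * t ^ 2 := by
      calc c ^ (m + 3) * t ^ 2 ≤ D * (t ^ (m + 1) * t ^ 2) := hcomb
        _ ≤ D * (t * t ^ 2) := by
          refine mul_le_mul_of_nonneg_left ?_ hDpos.le
          exact mul_le_mul_of_nonneg_right htm (by positivity)
        _ = D * t * t ^ 2 := by ring
    exact le_of_mul_le_mul_right h5 (by positivity)
  have h6 : D * t ≤ c ^ (m + 3) / 2 := by
    calc D * t ≤ D * (c ^ (m + 3) / (2 * D)) := mul_le_mul_of_nonneg_left htD hDpos.le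
      _ = c ^ (m + 3) / 2 := by field_simp
  have h7 : 0 < c ^ (m + 3) := by positivity
  linarith

end Fermat.Agent.S14.EP
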