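import Fermat.Agent.S14.EP.Factored

/-!
# Euler product for completely multiplicative functions on nonzero ideals
-/

set_option autoImplicit false
set_option linter.unusedSectionVars false

open IsDedekindDomain Ideal nonZeroDivisors Filter Topology

namespace Fermat.Agent.S14.EP

variable {R : Type*} [CommRing R] [IsDedekindDomain R]
variable {F : Type*} [NormedField F] [CompleteSpace F]

lemma prime₀_pow_injective (q : HeightOneSpectrum R) :
    Function.Injective (fun e : ℕ => prime₀ q ^ e) := by
  intro e e' h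
  have h' : q.asIdeal ^ e = q.asIdeal ^ e' := by
    have := congrArg (fun x : (Ideal R)⁰ => (x : Ideal R)) h
    simpa using this
  have hq : ¬ IsUnit q.asIdeal := q.prime.not_isUnit
  exact pow_injective_of_not_isUnit hq q.ne_bot h'

/-- If `‖f ·‖` is summable then `‖f q‖ < 1` for every prime `q`. -/
lemma norm_prime_lt_one (f : (Ideal R)⁰ →* F) (hsum : Summable (fun I => ‖f I‖))
    (q : HeightOneSpectrum R) : ‖f (prime₀ q)‖ < 1 := by
  have h1 : Summable (fun e : ℕ => ‖f (prime₀ q ^ e)‖) :=
    hsum.comp_injective (prime₀_pow_injective q)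
  simp_rw [map_pow, norm_pow] at h1
  have := summable_geometric_iff_norm_lt_one.mp h1
  simpa using this

/-- Finite Euler product: the sum of `f` over the `T`-factored ideals. -/
lemma summable_and_hasSum_factoredIdeals (f : (Ideal R)⁰ →* F)
    (hf : ∀ q : HeightOneSpectrum R, ‖f (prime₀ q)‖ < 1) (T : Finset (HeightOneSpectrum R)) :
    Summable (fun I : factoredIdeals T => ‖f I‖) ∧
      HasSum (fun I : factoredIdeals T => f I) (∏ q ∈ T, (1 - f (prime₀ q))⁻¹) := by
  classical
  induction T using Finset.induction with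
  | empty =>
    rw [factoredIdeals_empty]
    simp only [Finset.prod_empty]
    refine ⟨(Set.finite_singleton 1).summable (fun I => ‖f I‖), ?_⟩
    have h := hasSum_singleton (1 : (Ideal R)⁰) (fun I => f I)
    rw [map_one] at h
    exact h
  | insert q T hq ih =>
    have hgeo : HasSum (fun e : ℕ => f (prime₀ q) ^ e) (1 - f (prime₀ q))⁻¹ :=
      hasSum_geometric_of_norm_lt_one (hf q)
    have hgeo' : Summable (fun e : ℕ => ‖f (prime₀ q) ^ e‖) := by
      simp_rw [norm_pow]
      exact summable_geometric_of_lt_one (norm_nonneg _) (hf q)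
    have hval : ∀ x : ℕ × factoredIdeals T,
        f ((equivProd T hq x : factoredIdeals (insert q T)) : (Ideal R)⁰) =
          f (prime₀ q) ^ x.1 * f (x.2 : (Ideal R)⁰) := by
      intro x
      rw [equivProd_apply, map_mul, map_pow]
    have hsumN : Summable (fun x : ℕ × factoredIdeals T =>
        ‖f (prime₀ q) ^ x.1‖ * ‖f (x.2 : (Ideal R)⁰)‖) :=
      Summable.mul_of_nonneg (f := fun e : ℕ => ‖f (prime₀ q) ^ e‖)
        (g := fun I : factoredIdeals T => ‖f (I : (Ideal R)⁰)‖) hgeo' ih.1
        (fun _ => norm_nonneg _) (fun _ => norm_nonneg _)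
    have hsumP : Summable (fun x : ℕ × factoredIdeals T =>
        f (prime₀ q) ^ x.1 * f (x.2 : (Ideal R)⁰)) :=
      summable_mul_of_summable_norm (f := fun e : ℕ => f (prime₀ q) ^ e)
        (g := fun I : factoredIdeals T => f (I : (Ideal R)⁰)) hgeo' ih.1
    have hP : HasSum (fun x : ℕ × factoredIdeals T =>
        f (prime₀ q) ^ x.1 * f (x.2 : (Ideal R)⁰))
        ((1 - f (prime₀ q))⁻¹ * ∏ q ∈ T, (1 - f (prime₀ q))⁻¹) :=
      HasSum.mul (f := fun e : ℕ => f (prime₀ q) ^ e)
        (g := fun I : factoredIdeals T => f (I : (Ideal R)⁰)) hgeo ih.2 hsumP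
    constructor
    · refine (equivProd T hq).summable_iff.mp ?_
      have hfun : ((fun I : factoredIdeals (insert q T) => ‖f I‖) ∘ (equivProd T hq)) =
          fun x : ℕ × factoredIdeals T => ‖f (prime₀ q) ^ x.1‖ * ‖f (x.2 : (Ideal R)⁰)‖ := by
        funext x
        rw [Function.comp_apply, hval, norm_mul]
      rw [hfun]
      exact hsumN
    · rw [Finset.prod_insert hq]
      refine (equivProd T hq).hasSum_iff.mp ?_
      have hfun : ((fun I : factoredIdeals (insert q T) => f I) ∘ (equivProd T hq)) =
          fun x : ℕ × factoredIdeals T => f (prime₀ q) ^ x.1 * f (x.2 : (Ideal R)⁰) :=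
        funext hval
      rw [hfun]
      exact hP

/-- Tail estimate: the sum over `T`-factored ideals approximates the full sum. -/
lemma norm_tsum_sub_tsum_factoredIdeals_lt (f : (Ideal R)⁰ → F) (hsum : Summable f) {ε : ℝ}
    (hε : 0 < ε) :
    ∃ T₀ : Finset (HeightOneSpectrum R), ∀ T : Finset (HeightOneSpectrum R), T₀ ⊆ T →
      ‖(∑' I, f I) - ∑' I : factoredIdeals T, f I‖ < ε := by
  classical
  obtain ⟨A, hA⟩ := hsum.tsum_vanishing (Metric.ball_mem_nhds (0 : F) hε)
  choose t ht using fun I : (Ideal R)⁰ => exists_mem_factoredIdeals I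
  refine ⟨A.biUnion t, fun T hT => ?_⟩
  have hdisj : Disjoint ((factoredIdeals T)ᶜ : Set ((Ideal R)⁰)) ↑A := by
    rw [Set.disjoint_left]
    intro I hI hIA
    apply hI
    apply factoredIdeals_mono _ (ht I)
    exact (Finset.subset_biUnion_of_mem t (by simpa using hIA)).trans hT
  have := hA _ hdisj
  rw [mem_ball_zero_iff] at this
  rwa [← hsum.tsum_subtype_add_tsum_subtype_compl (factoredIdeals T), add_sub_cancel_left]

/-- **Euler product** over the height-one primes of a Dedekind domain for a completely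
multiplicative function on nonzero ideals with summable norm. -/
theorem eulerProduct_hasProd (f : (Ideal R)⁰ →* F) (hsum : Summable (fun I => ‖f I‖)) :
    HasProd (fun q : HeightOneSpectrum R => (1 - f (prime₀ q))⁻¹) (∑' I, f I) := by
  classical
  rw [HasProd, SummationFilter.unconditional, Metric.tendsto_atTop]
  intro ε hε
  obtain ⟨T₀, hT₀⟩ := norm_tsum_sub_tsum_factoredIdeals_lt (fun I => f I) hsum.of_norm hε
  refine ⟨T₀, fun T hT => ?_⟩
  have h := (summable_and_hasSum_factoredIdeals f (norm_prime_lt_one f hsum) T).2.tsum_eq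
  rw [dist_eq_norm, ← h, norm_sub_rev]
  exact hT₀ T hT

/-- The finite Euler product equals the sum over factored ideals. -/
lemma prod_eq_tsum_factoredIdeals (f : (Ideal R)⁰ →* F) (hsum : Summable (fun I => ‖f I‖))
    (T : Finset (HeightOneSpectrum R)) :
    ∏ q ∈ T, (1 - f (prime₀ q))⁻¹ = ∑' I : factoredIdeals T, f I :=
  (summable_and_hasSum_factoredIdeals f (norm_prime_lt_one f hsum) T).2.tsum_eq.symm

end Fermat.Agent.S14.EP
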