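import Mathlib

/-!
# Euler products over the nonzero ideals of a Dedekind domain

Port of `Mathlib.NumberTheory.EulerProduct.Basic` from `ℕ` to the monoid of nonzero ideals
of a Dedekind domain.  Main result: `Fermat.Agent.S14.EP.eulerProduct_hasProd`.
-/

set_option autoImplicit false
set_option linter.unusedSectionVars false

open IsDedekindDomain Ideal nonZeroDivisors

namespace Fermat.Agent.S14.EP

variable {R : Type*} [CommRing R] [IsDedekindDomain R]

/-- A height-one prime as a nonzero ideal. -/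
noncomputable def prime₀ (q : HeightOneSpectrum R) : (Ideal R)⁰ :=
  ⟨q.asIdeal, mem_nonZeroDivisors_of_ne_zero q.ne_bot⟩

@[simp] lemma coe_prime₀ (q : HeightOneSpectrum R) : ((prime₀ q : (Ideal R)⁰) : Ideal R) = q.asIdeal :=
  rfl

/-- The set of nonzero ideals all of whose prime divisors lie in `T`. -/
def factoredIdeals (T : Finset (HeightOneSpectrum R)) : Set ((Ideal R)⁰) :=
  {I | ∀ q : HeightOneSpectrum R, q.asIdeal ∣ (I : Ideal R) → q ∈ T}

lemma mem_factoredIdeals {T : Finset (HeightOneSpectrum R)} {I : (Ideal R)⁰} :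
    I ∈ factoredIdeals T ↔ ∀ q : HeightOneSpectrum R, q.asIdeal ∣ (I : Ideal R) → q ∈ T :=
  Iff.rfl

lemma factoredIdeals_mono {T T' : Finset (HeightOneSpectrum R)} (h : T ⊆ T') :
    factoredIdeals T ⊆ factoredIdeals T' :=
  fun _ hI q hq => h (hI q hq)

/-- A nonzero ideal without prime divisors is the unit ideal. -/
lemma eq_one_of_forall_not_dvd {I : (Ideal R)⁰}
    (h : ∀ q : HeightOneSpectrum R, ¬ q.asIdeal ∣ (I : Ideal R)) : I = 1 := by
  apply Subtype.ext
  rw [Submonoid.coe_one, Ideal.one_eq_top]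
  by_contra hI
  obtain ⟨M, hM, hIM⟩ := Ideal.exists_le_maximal _ hI
  have hI0 : (I : Ideal R) ≠ ⊥ := nonZeroDivisors.coe_ne_zero I
  have hM0 : M ≠ ⊥ := fun h0 => hI0 (le_bot_iff.mp (h0 ▸ hIM))
  exact h ⟨M, hM.isPrime, hM0⟩ (Ideal.dvd_iff_le.mpr hIM)

lemma factoredIdeals_empty : factoredIdeals (∅ : Finset (HeightOneSpectrum R)) = {1} := by
  ext I
  simp only [mem_factoredIdeals, Finset.notMem_empty, imp_false, Set.mem_singleton_iff]
  refine ⟨eq_one_of_forall_not_dvd, ?_⟩
  rintro rfl q hq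
  have : q.asIdeal = ⊤ := by
    have h1 : (⊤ : Ideal R) ≤ q.asIdeal := Ideal.dvd_iff_le.mp (by simpa using hq)
    exact top_le_iff.mp h1
  exact q.isPrime.ne_top this

/-- Every nonzero ideal is `T`-factored for a suitable finite `T`. -/
lemma exists_mem_factoredIdeals (I : (Ideal R)⁰) :
    ∃ T : Finset (HeightOneSpectrum R), I ∈ factoredIdeals T := by
  classical
  have hI0 : (I : Ideal R) ≠ ⊥ := nonZeroDivisors.coe_ne_zero I
  have hfin : {q : HeightOneSpectrum R | q.asIdeal ∣ (I : Ideal R)}.Finite :=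
    Ideal.finite_factors hI0
  exact ⟨hfin.toFinset, fun q hq => by simpa using hq⟩

lemma dvd_prime_iff_eq (p q : HeightOneSpectrum R) : p.asIdeal ∣ q.asIdeal ↔ p = q := by
  constructor
  · intro h
    have hle : q.asIdeal ≤ p.asIdeal := Ideal.dvd_iff_le.mp h
    have hqmax : q.asIdeal.IsMaximal := q.isMaximal
    have := hqmax.eq_of_le p.isPrime.ne_top hle
    exact (HeightOneSpectrum.ext this).symm
  · rintro rfl
    exact dvd_rfl

lemma pow_mul_mem_factoredIdeals {T : Finset (HeightOneSpectrum R)} [DecidableEq (HeightOneSpectrum R)]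
    (q : HeightOneSpectrum R) (e : ℕ) {I : (Ideal R)⁰} (hI : I ∈ factoredIdeals T) :
    prime₀ q ^ e * I ∈ factoredIdeals (insert q T) := by
  intro p hp
  have hp' : p.asIdeal ∣ q.asIdeal ^ e * (I : Ideal R) := by simpa using hp
  rcases p.prime.dvd_or_dvd hp' with h | h
  · have := p.prime.dvd_of_dvd_pow h
    rw [dvd_prime_iff_eq] at this
    exact this ▸ Finset.mem_insert_self _ _
  · exact Finset.mem_insert_of_mem (hI p h)

/-- The map `(e, I) ↦ q ^ e * I`. -/
noncomputable def prodMap [DecidableEq (HeightOneSpectrum R)] (T : Finset (HeightOneSpectrum R))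
    (q : HeightOneSpectrum R) (x : ℕ × factoredIdeals T) : factoredIdeals (insert q T) :=
  ⟨prime₀ q ^ x.1 * (x.2 : (Ideal R)⁰), pow_mul_mem_factoredIdeals q x.1 x.2.2⟩

lemma not_dvd_of_mem_factoredIdeals {T : Finset (HeightOneSpectrum R)} {q : HeightOneSpectrum R}
    (hq : q ∉ T) {I : (Ideal R)⁰} (hI : I ∈ factoredIdeals T) : ¬ q.asIdeal ∣ (I : Ideal R) :=
  fun h => hq (hI q h)

lemma prodMap_bijective [DecidableEq (HeightOneSpectrum R)] (T : Finset (HeightOneSpectrum R))
    {q : HeightOneSpectrum R} (hq : q ∉ T) : Function.Bijective (prodMap T q) := by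
  constructor
  · -- injectivity
    have key : ∀ (e e' : ℕ) (I I' : factoredIdeals T), e ≤ e' →
        q.asIdeal ^ e * ((I : (Ideal R)⁰) : Ideal R) = q.asIdeal ^ e' * ((I' : (Ideal R)⁰) : Ideal R) →
        e = e' ∧ I = I' := by
      intro e e' I I' hee' h
      obtain ⟨d, rfl⟩ := Nat.exists_eq_add_of_le hee'
      rw [pow_add, mul_assoc] at h
      have hq0 : q.asIdeal ^ e ≠ 0 := pow_ne_zero _ q.ne_bot
      have h2 : ((I : (Ideal R)⁰) : Ideal R) = q.asIdeal ^ d * ((I' : (Ideal R)⁰) : Ideal R) :=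
        mul_left_cancel₀ hq0 h
      have hd : d = 0 := by
        by_contra hd
        apply not_dvd_of_mem_factoredIdeals hq I.2
        rw [h2]
        exact Dvd.dvd.mul_right (dvd_pow_self _ hd) _
      subst hd
      refine ⟨rfl, ?_⟩
      apply Subtype.ext
      apply Subtype.ext
      simpa using h2
    rintro ⟨e, I⟩ ⟨e', I'⟩ h
    have h' : q.asIdeal ^ e * ((I : (Ideal R)⁰) : Ideal R) =
        q.asIdeal ^ e' * ((I' : (Ideal R)⁰) : Ideal R) := by
      have := congrArg (fun x : factoredIdeals (insert q T) => ((x : (Ideal R)⁰) : Ideal R)) h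
      simpa [prodMap] using this
    rcases le_total e e' with hle | hle
    · obtain ⟨h1, h2⟩ := key e e' I I' hle h'
      rw [h1, h2]
    · obtain ⟨h1, h2⟩ := key e' e I' I hle h'.symm
      rw [h1, h2]
  · -- surjectivity
    rintro ⟨J, hJ⟩
    have hJ0 : (J : Ideal R) ≠ 0 := nonZeroDivisors.coe_ne_zero J
    obtain ⟨n, a, hna, hJa⟩ := WfDvdMonoid.max_power_factor hJ0 q.irreducible
    have ha0 : a ≠ 0 := by
      rintro rfl
      exact hJ0 (by rw [hJa, mul_zero])
    let a₀ : (Ideal R)⁰ := ⟨a, mem_nonZeroDivisors_of_ne_zero ha0⟩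
    have ha : a₀ ∈ factoredIdeals T := by
      intro p hp
      have hp' : p.asIdeal ∣ (J : Ideal R) := by
        rw [hJa]; exact Dvd.dvd.mul_left hp _
      have := hJ p hp'
      rcases Finset.mem_insert.mp this with h | h
      · exact absurd (h ▸ hp) hna
      · exact h
    refine ⟨(n, ⟨a₀, ha⟩), ?_⟩
    apply Subtype.ext
    apply Subtype.ext
    simp [prodMap, a₀, hJa]

/-- The equivalence `ℕ × factoredIdeals T ≃ factoredIdeals (insert q T)` for `q ∉ T`. -/
noncomputable def equivProd [DecidableEq (HeightOneSpectrum R)] (T : Finset (HeightOneSpectrum R))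
    {q : HeightOneSpectrum R} (hq : q ∉ T) : ℕ × factoredIdeals T ≃ factoredIdeals (insert q T) :=
  Equiv.ofBijective (prodMap T q) (prodMap_bijective T hq)

lemma equivProd_apply [DecidableEq (HeightOneSpectrum R)] (T : Finset (HeightOneSpectrum R))
    {q : HeightOneSpectrum R} (hq : q ∉ T) (x : ℕ × factoredIdeals T) :
    ((equivProd T hq x : factoredIdeals (insert q T)) : (Ideal R)⁰) =
      prime₀ q ^ x.1 * (x.2 : (Ideal R)⁰) :=
  rfl

end Fermat.Agent.S14.EP
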